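import Fermat.Agent.SylowNorm.Local
import Mathlib.FieldTheory.LinearDisjoint
import Mathlib.FieldTheory.PolynomialGaloisGroup
import Mathlib.FieldTheory.PrimitiveElement

/-!
# The norm theorem in prime degree

Over a field of degree prime to `p` an extension of degree `p` becomes cyclic, and there the norm of
the extension is the norm of the cyclic one.
-/

set_option autoImplicit false
set_option linter.unusedSectionVars false
set_option linter.style.haveILetI false

noncomputable section

open NumberField NumberField.InfinitePlace IsDedekindDomain WithZero Polynomial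
open FA.ArtinRec FA.NormResidue
open FA.HasseCyclic (locNorms exists_norm_eq normU'_mem_locNorms)
open scoped Pointwise nonZeroDivisors Classical

namespace FA.SylowNorm

/-- Powers with coprime exponents. -/
theorem mem_of_pow_mem_coprime {G : Type*} [Group G] {H : Subgroup G} {c : G} {m n : ℕ}
    (h : m.Coprime n) (hm : c ^ m ∈ H) (hn : c ^ n ∈ H) : c ∈ H := by
  obtain ⟨a, b, hab⟩ := Nat.isCoprime_iff_coprime.2 h
  rw [← zpow_one c, ← hab, zpow_add, mul_comm a, mul_comm b, zpow_mul, zpow_mul, zpow_natCast,
    zpow_natCast]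
  exact mul_mem (zpow_mem hm _) (zpow_mem hn _)

variable {K N : Type*} [Field K] [NumberField K] [Field N] [NumberField N] [Algebra K N]
  [IsGalois K N]

/-- **Descent to prime degree.** -/
theorem exists_norm_of_prime (L : IntermediateField K N) {p : ℕ} (hp : p.Prime)
    (hL : Module.finrank K L = p) (P : Subgroup (N ≃ₐ[K] N)) (hP : Nat.card P = p)
    (hidx : ¬ p ∣ P.index) {c : Kˣ} (hc : ∀ v, c ∈ locNorms L v)
    (hinf : ∀ u : InfinitePlace (IntermediateField.fixedField P), ¬ u.IsUnramifiedIn N →
      ∀ h : IsReal u, 0 < embedding_of_isReal h (algebraMap K _ (c : K))) :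
    ∃ y : Lˣ, normU' (K := K) y = c := by
  haveI := Fact.mk hp
  set F := IntermediateField.fixedField P
  have hcop : (Module.finrank K F).Coprime p := by
    rw [finrank_fixedField, Nat.coprime_comm, hp.coprime_iff_not_dvd]
    exact hidx
  have hdis : F.LinearDisjoint L :=
    IntermediateField.LinearDisjoint.of_finrank_coprime (hL.symm ▸ hcop)
  have hsup : F ⊔ L = ⊤ := IntermediateField.eq_of_le_of_finrank_eq le_top (by
    rw [hdis.finrank_sup, hL, IntermediateField.finrank_top', ← Module.finrank_mul_finrank K F N,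
      IntermediateField.finrank_fixedField_eq_card, hP])
  have hN : ∀ x : Lˣ, ∃ y : Nˣ, normU' (K := F) y = baseU (normU' (K := K) x) := fun x =>
    ⟨baseU x, Units.ext (hdis.norm_algebraMap hsup (x : L))⟩
  haveI : IsCyclic P := isCyclic_of_prime_card hP
  haveI : IsCyclic (N ≃ₐ[F] N) := isCyclic_of_surjective
    ((MulEquiv.subgroupCongr (IntermediateField.fixingSubgroup_fixedField P).symm).trans
      (IntermediateField.fixingSubgroupEquiv F))
    (MulEquiv.surjective _)
  obtain ⟨σ, hσ⟩ := IsCyclic.exists_generator (α := N ≃ₐ[F] N)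
  obtain ⟨y, hy⟩ := exists_norm_eq hσ (fun Q => baseU_mem_locNorms hN Q (hc _)) hinf
  have h1 : c ^ Module.finrank K F ∈ (normU' (K := K) (L := L)).range := by
    refine ⟨normU' (K := L) y, ?_⟩
    rw [normU'_norm, ← normU'_norm F, hy, normU'_baseU_eq_pow]
  have h2 : c ^ p ∈ (normU' (K := K) (L := L)).range := by
    refine ⟨baseU c, ?_⟩
    rw [normU'_baseU_eq_pow, hL]
  obtain ⟨x, hx⟩ := mem_of_pow_mem_coprime hcop h1 h2
  exact ⟨x, hx⟩

/-- Norms and local norms under an isomorphism over the base. -/
theorem normU'_congr {L M : Type*} [Field L] [NumberField L] [Algebra K L] [Field M] [NumberField M]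
    [Algebra K M] (e : L ≃ₐ[K] M) (x : Lˣ) :
    normU' (K := K) (Units.map (e : L →* M) x) = normU' (K := K) x :=
  Units.ext (Algebra.norm_eq_of_algEquiv e (x : L))

theorem locNorms_congr {L M : Type*} [Field L] [NumberField L] [Algebra K L] [Field M]
    [NumberField M] [Algebra K M] (e : L ≃ₐ[K] M) (v : HeightOneSpectrum (𝓞 K)) :
    locNorms L v ≤ locNorms M v := by
  refine le_iInf fun k => (iInf_le _ k).trans (sup_le_sup_right ?_ _)
  rintro _ ⟨x, rfl⟩
  exact ⟨_, normU'_congr e x⟩

/-- **The norm theorem in prime degree.** -/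
theorem bartels {L : Type*} [Field L] [NumberField L] [Algebra K L]
    (hp : (Module.finrank K L).Prime) {c : Kˣ} (hc : ∀ v, c ∈ locNorms L v)
    (hreal : ∀ φ : K →+* ℝ, (∀ ψ : L →+* ℝ, ψ.comp (algebraMap K L) ≠ φ) → 0 < φ (c : K)) :
    ∃ y : Lˣ, normU' (K := K) y = c := by
  set p := Module.finrank K L with hpdef
  haveI := Fact.mk hp
  let pb := Field.powerBasisOfFiniteOfSeparable K L
  set f := minpoly K pb.gen
  have hint : IsIntegral K pb.gen := Algebra.IsIntegral.isIntegral pb.gen
  have hdeg : f.natDegree = p := by rw [hpdef, pb.finrank, ← pb.natDegree_minpoly]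
  have hsep : f.Separable := Algebra.IsSeparable.isSeparable K pb.gen
  let M := f.SplittingField
  haveI : NumberField M := NumberField.of_module_finite K M
  haveI : IsGalois K M := IsGalois.of_separable_splitting_field hsep
  obtain ⟨r, hr⟩ := (SplittingField.splits f).exists_eval_eq_zero (by
    rw [degree_map, degree_eq_natDegree (minpoly.ne_zero hint), hdeg]
    exact_mod_cast hp.ne_zero)
  rw [eval_map, ← aeval_def] at hr
  set L₀ := (pb.lift r hr).fieldRange
  let e : L ≃ₐ[K] L₀ := AlgEquiv.ofInjectiveField (pb.lift r hr)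
  have hL₀ : Module.finrank K L₀ = p := e.toLinearEquiv.finrank_eq.symm
  have hdvd : p ∣ Nat.card (M ≃ₐ[K] M) := by
    rw [IsGalois.card_aut_eq_finrank, ← Module.finrank_mul_finrank K L₀ M, hL₀]
    exact dvd_mul_right _ _
  have hfac : Nat.card (M ≃ₐ[K] M) ∣ p.factorial := by
    haveI : Fact ((f.map (algebraMap K M)).Splits) := ⟨SplittingField.splits f⟩
    have h := Subgroup.card_dvd_of_injective (Gal.galActionHom f M)
      (Gal.galActionHom_injective f M)
    rw [Nat.card_perm, Nat.card_eq_fintype_card (α := f.rootSet M),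
      card_rootSet_eq_natDegree hsep (SplittingField.splits f), hdeg] at h
    exact h
  obtain ⟨g, hg⟩ := exists_prime_orderOf_dvd_card' p hdvd
  have hP : Nat.card (Subgroup.zpowers g) = p := by rw [Nat.card_zpowers, hg]
  have hidx : ¬ p ∣ (Subgroup.zpowers g).index := fun h => by
    have h1 : p * p ∣ p.factorial := by
      refine (mul_dvd_mul_left p h).trans ?_
      nth_rewrite 1 [← hP]
      rwa [Subgroup.card_mul_index]
    obtain ⟨k, hk⟩ : ∃ k, p = k + 1 := ⟨p - 1, (Nat.succ_pred_eq_of_pos hp.pos).symm⟩
    rw [hk, Nat.factorial_succ, ← hk] at h1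
    have := (Nat.Prime.dvd_factorial hp).1 (Nat.dvd_of_mul_dvd_mul_left hp.pos h1)
    omega
  have hinf : ∀ u : InfinitePlace (IntermediateField.fixedField (Subgroup.zpowers g)),
      ¬ u.IsUnramifiedIn M → ∀ h : IsReal u,
        0 < embedding_of_isReal h (algebraMap K _ (c : K)) := fun u hu hur => by
    rcases hp.eq_two_or_odd' with h2 | h2
    swap
    · have := InfinitePlace.even_finrank_of_not_isUnramifiedIn hu
      rw [IntermediateField.finrank_fixedField_eq_card, hP] at this
      exact absurd this (Nat.not_even_iff_odd.2 h2)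
    refine hreal ((embedding_of_isReal hur).comp (algebraMap K _)) fun ψ hψ => hu ?_
    have htop : L₀ = ⊤ := IntermediateField.eq_of_le_of_finrank_eq le_top (by
      rw [IntermediateField.finrank_top', hL₀, ← IsGalois.card_aut_eq_finrank K M]
      refine Nat.dvd_antisymm hdvd (hfac.trans ?_)
      rw [h2]
      decide)
    let j : M →+* L := (e.symm : L₀ →+* L).comp
      (RingHom.codRestrict (RingHom.id M) L₀.toSubalgebra fun x => by
        show x ∈ L₀
        rw [htop]
        exact IntermediateField.mem_top)
    obtain ⟨⟨u', hu'⟩, hψ'⟩ := FA.Hecke.exists_isReal_embedding (ψ.comp j)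
    intro W hW
    have hw : (u'.comap (algebraMap K M)) = W.comap (algebraMap K M) := by
      have hr' : IsReal (u'.comap (algebraMap K M)) := hu'.comap _
      have hr'' : IsReal (u.comap (algebraMap K _)) := hur.comap _
      rw [IsScalarTower.algebraMap_eq K (IntermediateField.fixedField (Subgroup.zpowers g)) M,
        InfinitePlace.comap_comp W, hW, ← IsScalarTower.algebraMap_eq]
      refine embedding_of_isReal_inj hr' hr'' (RingHom.ext fun q => ?_)
      rw [← embedding_comap hr' hu' rfl, ← embedding_comap hr'' hur rfl]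
      refine (DFunLike.congr_fun hψ' (algebraMap K M q)).trans
        (Eq.trans ?_ (DFunLike.congr_fun hψ q))
      show ψ (e.symm _) = ψ (algebraMap K L q)
      congr 1
      rw [← e.symm.commutes q]
      rfl
    obtain ⟨s, rfl⟩ := InfinitePlace.exists_smul_eq_of_comap_eq hw
    exact (isUnramified_smul_iff.2 (isUnramified_iff.2 (Or.inl hu'))).of_restrictScalars _
  obtain ⟨y, hy⟩ := exists_norm_of_prime L₀ hp hL₀ _ hP hidx
    (fun v => locNorms_congr e v (hc v)) hinf
  exact ⟨Units.map (e.symm : L₀ →* L) y, (normU'_congr e.symm y).trans hy⟩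

end FA.SylowNorm

end
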