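import Fermat.Agent.NormResidue.Kernel
import Fermat.Agent.ArtinReciprocity.RayNorm
import Mathlib.GroupTheory.Complement

/-!
# Local norms under a change of base

A local norm stays one over a larger base as soon as norms stay norms, and a power of it with
exponent the index is a norm when the norm principle holds over the larger base.
-/

set_option autoImplicit false
set_option linter.unusedSectionVars false
set_option linter.style.haveILetI false

noncomputable section

open NumberField NumberField.InfinitePlace IsDedekindDomain WithZero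
open FA.ArtinRec FA.NormResidue
open FA.HasseCyclic (nearOne mem_nearOne locNorms exists_norm_eq normU'_mem_locNorms)
open scoped Pointwise nonZeroDivisors Classical

namespace FA.SylowNorm

section change

variable {K L F N : Type*} [Field K] [NumberField K] [Field L] [NumberField L] [Field F]
  [NumberField F] [Field N] [NumberField N] [Algebra K L] [Algebra K F] [Algebra F N]

theorem baseU_mem_nearOne (P : HeightOneSpectrum (𝓞 F)) {k : ℕ} {a : Kˣ}
    (h : a ∈ nearOne (belowP K P) k) : baseU a ∈ nearOne P k := by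
  rw [mem_nearOne] at h ⊢
  by_cases h0 : (a : K) - 1 = 0
  · rw [baseU_val, sub_eq_zero.1 h0, map_one, sub_self, map_zero]
    exact zero_le
  rw [show (a : K) - 1 = ((Units.mk0 _ h0 : Kˣ) : K) from rfl, valuation_eq_exp, exp_le_exp] at h
  rw [baseU_val, ← map_one (algebraMap K F), ← map_sub,
    show (a : K) - 1 = ((Units.mk0 _ h0 : Kˣ) : K) from rfl, ← baseU_val, valuation_eq_exp,
    ord_baseU, exp_le_exp]
  have h1 : (1 : ℤ) ≤ eIdx K P := by exact_mod_cast eIdx_pos (K := K) P
  push_cast at h ⊢
  nlinarith

/-- **Local norms over a larger base.** -/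
theorem baseU_mem_locNorms
    (hN : ∀ x : Lˣ, ∃ y : Nˣ, normU' (K := F) y = baseU (normU' (K := K) x))
    (P : HeightOneSpectrum (𝓞 F)) {c : Kˣ} (hc : c ∈ locNorms L (belowP K P)) :
    baseU c ∈ locNorms N P := by
  refine Subgroup.mem_iInf.2 fun k => ?_
  obtain ⟨_, ⟨x, rfl⟩, u, hu, rfl⟩ := Subgroup.mem_sup.1 (Subgroup.mem_iInf.1 hc k)
  rw [map_mul]
  obtain ⟨y, hy⟩ := hN x
  exact Subgroup.mul_mem_sup ⟨y, hy⟩ (baseU_mem_nearOne P hu)

end change

variable {K N : Type*} [Field K] [NumberField K] [Field N] [NumberField N] [Algebra K N]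

variable (N) in
/-- A norm everywhere locally. -/
def IsLocNormAt (c : Kˣ) : Prop :=
  (∀ v : HeightOneSpectrum (𝓞 K), c ∈ locNorms N v) ∧
    ∀ w : InfinitePlace K, ¬ w.IsUnramifiedIn N →
      ∀ h : IsReal w, 0 < embedding_of_isReal h (c : K)

variable (K N) in
/-- The norm principle. -/
def Principle : Prop := ∀ c : Kˣ, IsLocNormAt N c → ∃ y : Nˣ, normU' (K := K) y = c

theorem embedding_comap {F : Type*} [Field F] [Algebra K F] {u : InfinitePlace F}
    {w : InfinitePlace K} (hw : IsReal w) (hu : IsReal u) (h : u.comap (algebraMap K F) = w)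
    (q : K) : embedding_of_isReal hu (algebraMap K F q) = embedding_of_isReal hw q := by
  subst h
  refine Complex.ofReal_injective ?_
  rw [embedding_of_isReal_apply, embedding_of_isReal_apply,
    comap_embedding_of_isReal (algebraMap K F) hw]
  rfl

variable [IsGalois K N]

/-- Norms are norms everywhere locally. -/
theorem isLocNormAt_normU' (x : Nˣ) : IsLocNormAt N (normU' (K := K) x) := by
  refine ⟨fun v => normU'_mem_locNorms v x, fun w hw hr => norm_pos_of_positive_above x.ne_zero _
    fun ψ hψ => absurd (fun u hu => ?_) hw⟩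
  obtain ⟨⟨u', hu'⟩, rfl⟩ := FA.Hecke.exists_isReal_embedding ψ
  have hc : u'.comap (algebraMap K N) = w := by
    have hr' : IsReal (u'.comap (algebraMap K N)) := hu'.comap _
    exact embedding_of_isReal_inj hr' hr (RingHom.ext fun q => by
      rw [← embedding_comap hr' hu' rfl]
      exact DFunLike.congr_fun hψ q)
  obtain ⟨g, rfl⟩ := InfinitePlace.exists_smul_eq_of_comap_eq (hc.trans hu.symm)
  rw [isUnramified_smul_iff]
  exact isUnramified_iff.2 (Or.inl hu')

/-- **A norm of the whole extension is a norm over every intermediate field.** -/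
theorem exists_norm_lift (F : IntermediateField K N) (x : Nˣ) :
    ∃ y : Nˣ, normU' (K := F) y = baseU (normU' (K := K) x) := by
  obtain ⟨T, hT, -⟩ := Subgroup.exists_isComplement_right F.fixingSubgroup 1
  refine ⟨∏ t : T, galU (t : N ≃ₐ[K] N) x, Units.ext ((algebraMap F N).injective ?_)⟩
  show algebraMap F N (Algebra.norm F ((∏ t : T, galU (t : N ≃ₐ[K] N) x : Nˣ) : N)) =
    algebraMap F N (algebraMap K F (Algebra.norm K (x : N)))
  rw [Algebra.norm_eq_prod_automorphisms, ← IsScalarTower.algebraMap_apply,
    Algebra.norm_eq_prod_automorphisms,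
    ← (Equiv.ofBijective _ hT).prod_comp fun g : N ≃ₐ[K] N => g (x : N), Fintype.prod_prod_type,
    ← (IntermediateField.fixingSubgroupEquiv F).toEquiv.prod_comp]
  refine Finset.prod_congr rfl fun p _ => ?_
  rw [Units.coe_prod, map_prod]
  rfl

theorem baseU_local (F : IntermediateField K N) {c : Kˣ} (hc : IsLocNormAt N c) :
    IsLocNormAt N (baseU (L := F) c) := by
  refine ⟨fun P => baseU_mem_locNorms (exists_norm_lift F) P (hc.1 _), fun u hu hur => ?_⟩
  rw [baseU_val, embedding_comap (hur.comap (algebraMap K F)) hur rfl]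
  refine hc.2 _ (fun hK => hu fun W hW => ?_) _
  refine (hK W ?_).of_restrictScalars F
  rw [← hW, ← InfinitePlace.comap_comp, ← IsScalarTower.algebraMap_eq]

theorem normU'_baseU_eq_pow (F : IntermediateField K N) (c : Kˣ) :
    normU' (K := K) (baseU (L := F) c) = c ^ Module.finrank K F :=
  Units.ext (by
    rw [Units.val_pow_eq_pow_val]
    exact Algebra.norm_algebraMap (c : K))

theorem normU'_norm (F : IntermediateField K N) (y : Nˣ) :
    normU' (K := K) (normU' (K := F) y) = normU' (K := K) y :=
  Units.ext (Algebra.norm_norm (R := K) (S := F) (a := (y : N)))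

theorem finrank_fixedField (P : Subgroup (N ≃ₐ[K] N)) :
    Module.finrank K (IntermediateField.fixedField P) = P.index := by
  have h1 := Module.finrank_mul_finrank K (IntermediateField.fixedField P) N
  rw [IntermediateField.finrank_fixedField_eq_card, ← IsGalois.card_aut_eq_finrank K N,
    ← Subgroup.card_mul_index P, mul_comm (Nat.card P)] at h1
  exact Nat.eq_of_mul_eq_mul_right Nat.card_pos h1

/-- **Descent**: over a fixed field the principle gives the power with exponent the index. -/
theorem pow_index_mem (P : Subgroup (N ≃ₐ[K] N))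
    (hP : Principle (IntermediateField.fixedField P) N) {c : Kˣ} (hc : IsLocNormAt N c) :
    c ^ P.index ∈ (normU' (K := K) (L := N)).range := by
  obtain ⟨y, hy⟩ := hP _ (baseU_local (IntermediateField.fixedField P) hc)
  refine ⟨y, ?_⟩
  rw [← normU'_norm (IntermediateField.fixedField P), hy, normU'_baseU_eq_pow,
    finrank_fixedField]

/-- **Powers with exponents prime to each prime of the degree suffice.** -/
theorem mem_range_of_pows {c : Kˣ}
    (h : ∀ p : ℕ, p.Prime → p ∣ Nat.card (N ≃ₐ[K] N) →
      ∃ m : ℕ, ¬ p ∣ m ∧ c ^ m ∈ (normU' (K := K) (L := N)).range) :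
    c ∈ (normU' (K := K) (L := N)).range := by
  set H := (normU' (K := K) (L := N)).range
  rw [← QuotientGroup.eq_one_iff, ← orderOf_eq_one_iff]
  by_contra hne
  have hn : orderOf (c : Kˣ ⧸ H) ∣ Nat.card (N ≃ₐ[K] N) := by
    rw [orderOf_dvd_iff_pow_eq_one, ← QuotientGroup.mk_pow, QuotientGroup.eq_one_iff,
      IsGalois.card_aut_eq_finrank]
    exact ⟨baseU c, Units.ext (by
      rw [Units.val_pow_eq_pow_val]
      exact Algebra.norm_algebraMap (c : K))⟩
  obtain ⟨p, hp, hpd⟩ := Nat.exists_prime_and_dvd hne
  obtain ⟨m, hm, hcm⟩ := h p hp (hpd.trans hn)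
  refine hm (hpd.trans ?_)
  rw [orderOf_dvd_iff_pow_eq_one, ← QuotientGroup.mk_pow, QuotientGroup.eq_one_iff]
  exact hcm

/-- The cyclic case. -/
theorem principle_of_cyclic [IsCyclic (N ≃ₐ[K] N)] : Principle K N := fun c hc => by
  obtain ⟨σ, hσ⟩ := IsCyclic.exists_generator (α := N ≃ₐ[K] N)
  exact exists_norm_eq hσ hc.1 hc.2

end FA.SylowNorm

end
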