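import Fermat.Agent.SylowNorm.Local
import Fermat.Agent.BiquadNorm.Principle
import Mathlib.GroupTheory.SpecificGroups.ZGroup
import Mathlib.GroupTheory.SpecificGroups.KleinFour

/-!
# The norm principle through Sylow subgroups

It holds if it holds over the fixed field of one Sylow subgroup for each prime. For a normal
four-group as Sylow subgroup a prime with decomposition group of order divisible by four is also
necessary: otherwise the norm of the obstruction over the fixed field is one.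
-/

set_option autoImplicit false
set_option linter.unusedSectionVars false
set_option linter.style.haveILetI false

noncomputable section

open NumberField NumberField.InfinitePlace IsDedekindDomain WithZero
open FA.ArtinRec FA.NormResidue
open FA.HasseCyclic (nearOne mem_nearOne locNorms)
open FA.BiquadNorm (IsLocNorm IsFull principle)
open scoped Pointwise nonZeroDivisors Classical

namespace FA.SylowNorm

variable {K N : Type*} [Field K] [NumberField K] [Field N] [NumberField N] [Algebra K N]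
  [IsGalois K N]

variable (K N) in
/-- The automorphisms over a fixed field are the subgroup. -/
def autEquiv (P : Subgroup (N ≃ₐ[K] N)) :
    P ≃* (N ≃ₐ[IntermediateField.fixedField P] N) :=
  (MulEquiv.subgroupCongr (IntermediateField.fixingSubgroup_fixedField P).symm).trans
    (IntermediateField.fixingSubgroupEquiv _)

theorem autEquiv_apply (P : Subgroup (N ≃ₐ[K] N)) (g : P) :
    (autEquiv K N P g).restrictScalars K = (g : N ≃ₐ[K] N) := rfl

theorem smul_ideal_eq (F : IntermediateField K N) (h : N ≃ₐ[F] N) (I : Ideal (𝓞 N)) :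
    h • I = (h.restrictScalars K) • I := rfl

/-- **The Sylow reduction.** -/
theorem principle_of_sylow
    (h : ∀ p : ℕ, p.Prime → p ∣ Nat.card (N ≃ₐ[K] N) → ∃ P : Sylow p (N ≃ₐ[K] N),
      Principle (IntermediateField.fixedField (P : Subgroup (N ≃ₐ[K] N))) N) :
    Principle K N := fun c hc => by
  obtain ⟨y, hy⟩ := mem_range_of_pows (N := N) (c := c) fun p hp hd => by
    obtain ⟨P, hP⟩ := h p hp hd
    haveI := Fact.mk hp
    exact ⟨_, P.not_dvd_index, pow_index_mem _ hP hc⟩
  exact ⟨y, hy⟩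

theorem principle_of_cyclic_subgroup (P : Subgroup (N ≃ₐ[K] N)) [IsCyclic P] :
    Principle (IntermediateField.fixedField P) N :=
  haveI : IsCyclic (N ≃ₐ[IntermediateField.fixedField P] N) :=
    isCyclic_of_surjective (autEquiv K N P) (autEquiv K N P).surjective
  principle_of_cyclic

/-- **All Sylow subgroups cyclic.** -/
theorem principle_zgroup [IsZGroup (N ≃ₐ[K] N)] : Principle K N :=
  principle_of_sylow fun p hp _ => by
    haveI := Fact.mk hp
    obtain ⟨P⟩ : Nonempty (Sylow p (N ≃ₐ[K] N)) := inferInstance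
    haveI : IsCyclic (P : Subgroup (N ≃ₐ[K] N)) := IsZGroup.isZGroup p hp P
    exact ⟨P, principle_of_cyclic_subgroup _⟩

/-! ### A four-group -/

theorem comm_of_exp_two {G : Type*} [Group G] (h : ∀ g : G, g * g = 1) : IsMulCommutative G :=
  ⟨⟨fun a b => by
    rw [← one_mul (b * a), ← h (a * b), mul_assoc, mul_assoc a b (b * a), ← mul_assoc b b,
      h, one_mul, h, mul_one]⟩⟩

theorem isLocNorm_iff_at [IsMulCommutative (N ≃ₐ[K] N)] (c : Kˣ) :
    IsLocNorm N c ↔ IsLocNormAt N c :=
  and_congr (forall_congr' fun v => by rw [← ker_normSymbol (L := N), MonoidHom.mem_ker]) Iff.rfl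

section klein

variable (P : Subgroup (N ≃ₐ[K] N)) [IsKleinFour P]

theorem exp_two_fixed (g : N ≃ₐ[IntermediateField.fixedField P] N) : g * g = 1 := by
  obtain ⟨g, rfl⟩ := (autEquiv K N P).surjective g
  rw [← map_mul, IsKleinFour.mul_self, map_one]

theorem card_fixed : Nat.card (N ≃ₐ[IntermediateField.fixedField P] N) = 4 := by
  rw [← Nat.card_congr (autEquiv K N P).toEquiv, IsKleinFour.card_four]

/-- The decomposition group over the fixed field. -/
theorem card_stabilizer_fixed (Q : HeightOneSpectrum (𝓞 N)) :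
    Nat.card (MulAction.stabilizer (N ≃ₐ[IntermediateField.fixedField P] N) Q.asIdeal) =
      Nat.card ↥(P ⊓ MulAction.stabilizer (N ≃ₐ[K] N) Q.asIdeal) := by
  refine Nat.card_congr
    { toFun := fun h => ⟨(h.1 : N ≃ₐ[IntermediateField.fixedField P] N).restrictScalars K, ?_, h.2⟩
      invFun := fun g => ⟨autEquiv K N P ⟨g.1, g.2.1⟩, g.2.2⟩
      left_inv := fun h => Subtype.ext (AlgEquiv.ext fun _ => rfl)
      right_inv := fun g => Subtype.ext (AlgEquiv.ext fun _ => rfl) }
  obtain ⟨g, hg⟩ := (autEquiv K N P).surjective h.1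
  rw [← hg, autEquiv_apply]
  exact g.2

end klein

/-- A subgroup of order four inside a group of order divisible by four is a Sylow subgroup of it. -/
theorem exists_sylow_le (h2 : ∀ P : Sylow 2 (N ≃ₐ[K] N), IsKleinFour P)
    {D : Subgroup (N ≃ₐ[K] N)} (hD : 4 ∣ Nat.card D) :
    ∃ P : Sylow 2 (N ≃ₐ[K] N), (P : Subgroup (N ≃ₐ[K] N)) ≤ D := by
  haveI := Fact.mk Nat.prime_two
  obtain ⟨S, hS⟩ := Sylow.exists_subgroup_card_pow_prime 2 (n := 2) (G := D) (by simpa using hD)
  have hcard : Nat.card (S.map D.subtype) = 2 ^ 2 := by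
    rw [Subgroup.card_map_of_injective D.subtype_injective, hS]
  obtain ⟨P, hP⟩ := (IsPGroup.of_card hcard).exists_le_sylow
  haveI := h2 P
  refine ⟨P, (Subgroup.eq_of_le_of_card_ge hP ?_).ge.trans (Subgroup.map_subtype_le S)⟩
  rw [hcard]
  exact (IsKleinFour.card_four (G := (P : Subgroup (N ≃ₐ[K] N)))).le

/-- **A four-group as Sylow subgroup: sufficiency.** -/
theorem principle_klein (hodd : ∀ p : ℕ, p.Prime → p ≠ 2 → ∀ P : Sylow p (N ≃ₐ[K] N), IsCyclic P)
    (h2 : ∀ P : Sylow 2 (N ≃ₐ[K] N), IsKleinFour P) {Q : HeightOneSpectrum (𝓞 N)}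
    (hQ : 4 ∣ Nat.card (MulAction.stabilizer (N ≃ₐ[K] N) Q.asIdeal)) : Principle K N :=
  principle_of_sylow fun p hp _ => by
    haveI := Fact.mk hp
    by_cases h : p = 2
    swap
    · obtain ⟨P⟩ : Nonempty (Sylow p (N ≃ₐ[K] N)) := inferInstance
      haveI : IsCyclic (P : Subgroup (N ≃ₐ[K] N)) := hodd p hp h P
      exact ⟨P, principle_of_cyclic_subgroup _⟩
    subst h
    obtain ⟨P, hP⟩ := exists_sylow_le h2 hQ
    haveI : IsKleinFour (P : Subgroup (N ≃ₐ[K] N)) := h2 P
    refine ⟨P, fun c hc => ?_⟩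
    haveI := comm_of_exp_two (exp_two_fixed (P : Subgroup (N ≃ₐ[K] N)))
    refine (principle _ N (exp_two_fixed _) (card_fixed _)).1.2 ⟨belowP _ Q, ?_⟩ c
      ((isLocNorm_iff_at c).2 hc)
    rw [IsFull, range_normSymbol rfl, ← Subgroup.card_eq_iff_eq_top, card_stabilizer_fixed,
      inf_eq_left.2 hP, card_fixed]
    exact IsKleinFour.card_four

/-- The product over the conjugates of an element of order two. -/
theorem pow_card_of_odd {G : Type*} [Group G] {q : G} (hq : q * q = 1) {n : ℕ} (hn : Odd n) :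
    q ^ n = q := by
  obtain ⟨k, rfl⟩ := hn
  rw [pow_succ, pow_mul, pow_two, hq, one_pow, one_mul]

/-- A norm over a Galois intermediate field, conjugated. -/
theorem exists_norm_galU (F : IntermediateField K N) [IsGalois K F] (g : F ≃ₐ[K] F) {u : Fˣ}
    (h : ∃ y : Nˣ, normU' (K := F) y = galU g u) : ∃ y : Nˣ, normU' (K := F) y = u := by
  obtain ⟨y, hy⟩ := h
  obtain ⟨G, rfl⟩ := AlgEquiv.restrictNormalHom_surjective (F := K) (K₁ := F) N g
  refine ⟨galU G⁻¹ y, Units.ext ?_⟩
  have he := Algebra.norm_eq_of_equiv_equiv (AlgEquiv.restrictNormalHom F G).toRingEquiv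
    G.toRingEquiv (RingHom.ext fun q => AlgEquiv.restrictNormal_commutes G F q) (G⁻¹ (y : N))
  show Algebra.norm F (G⁻¹ (y : N)) = (u : F)
  rw [he]
  show (AlgEquiv.restrictNormalHom F G).symm (Algebra.norm F (G (G.symm (y : N)))) = (u : F)
  rw [AlgEquiv.apply_symm_apply, show Algebra.norm F (y : N) =
    AlgEquiv.restrictNormalHom F G (u : F) from congrArg Units.val hy, AlgEquiv.symm_apply_apply]

/-- The norm of an element that is a local norm everywhere, from a Galois intermediate field. -/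
theorem normU'_mem_locNorms_of_local (F : IntermediateField K N) [IsGalois K F] {u : Fˣ}
    (hu : ∀ P : HeightOneSpectrum (𝓞 F), u ∈ locNorms N P) (v : HeightOneSpectrum (𝓞 K)) :
    normU' (K := K) u ∈ locNorms N v := by
  refine Subgroup.mem_iInf.2 fun k => ?_
  obtain ⟨j, -, hj⟩ := exists_norm_level (M := F) v k
  have hex : ∀ P : HeightOneSpectrum (𝓞 F), ∃ y : Nˣ, u / normU' y ∈ nearOne P j := fun P => by
    obtain ⟨_, ⟨y, rfl⟩, a, ha, he⟩ := Subgroup.mem_sup.1 (Subgroup.mem_iInf.1 (hu P) j)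
    exact ⟨y, by rwa [← he, mul_div_cancel_left]⟩
  choose yP hyP using hex
  set R := primesAbove F {v}
  choose j₂ _ hj₂ using fun P : HeightOneSpectrum (𝓞 F) => exists_norm_level (M := N) P j
  obtain ⟨y, hy⟩ := exists_element_above (K := F) R (fun Q => yP (belowP F Q)) (R.sup j₂)
  refine Subgroup.mem_sup.2 ⟨_, ⟨y, rfl⟩, normU' (K := K) (u / normU' (K := F) y),
    hj _ fun P hP => ?_,
    ?_⟩
  · have hPR : P ∈ R := mem_primesAbove.2 (Finset.mem_singleton.2 hP)
    have h1 := norm_div_norm_mem (hj₂ P) (x := y) (y := yP P) fun Q hQ => by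
      have := hy Q (hQ.symm ▸ hPR)
      simp only [hQ] at this
      exact FA.HasseCyclic.nearOne_anti Q (Finset.le_sup hPR) this
    rw [← div_div_div_cancel_right u (normU' (K := F) y) (normU' (K := F) (yP P))]
    exact div_mem (hyP P) h1
  · rw [map_div, normU'_norm, mul_div_cancel]

/-- **A normal four-group: necessity.** -/
theorem not_principle_klein (P : Sylow 2 (N ≃ₐ[K] N)) [(P : Subgroup (N ≃ₐ[K] N)).Normal]
    [IsKleinFour (P : Subgroup (N ≃ₐ[K] N))]
    (hD : ∀ Q : HeightOneSpectrum (𝓞 N),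
      ¬ 4 ∣ Nat.card (MulAction.stabilizer (N ≃ₐ[K] N) Q.asIdeal)) :
    ∃ e : Kˣ, IsLocNormAt N (e * e) ∧ ¬ ∃ y : Nˣ, normU' (K := K) y = e * e := by
  haveI := Fact.mk Nat.prime_two
  haveI := comm_of_exp_two (exp_two_fixed (P : Subgroup (N ≃ₐ[K] N)))
  set F := IntermediateField.fixedField (P : Subgroup (N ≃ₐ[K] N))
  obtain ⟨-, x, hno, hor⟩ := principle F N (exp_two_fixed _) (card_fixed _)
  have hsq : ∀ z : Fˣ, IsLocNorm N (z * z) := fun z =>
    ⟨fun v => by rw [map_mul, exp_two_fixed], fun w _ h => by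
      rw [Units.val_mul, map_mul]; exact mul_self_pos.2 ((map_ne_zero _).2 z.ne_zero)⟩
  have hnx : ¬ ∃ y : Nˣ, normU' (K := F) y = x * x := hno fun v hv => by
    obtain ⟨Q, rfl⟩ := exists_belowP F N v
    rw [IsFull, range_normSymbol rfl, ← Subgroup.card_eq_iff_eq_top, card_stabilizer_fixed,
      card_fixed] at hv
    exact hD Q (hv ▸ Subgroup.card_dvd_of_le inf_le_right)
  refine ⟨normU' (K := K) x, ⟨fun v => ?_, fun w _ hr => ?_⟩, ?_⟩
  · rw [← map_mul]
    exact normU'_mem_locNorms_of_local F (fun Q => ((isLocNorm_iff_at _).1 (hsq x)).1 Q) v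
  · rw [Units.val_mul, map_mul]
    exact mul_self_pos.2 ((map_ne_zero _).2 (Units.ne_zero _))
  rintro ⟨y, hy⟩
  obtain ⟨y', hy'⟩ := exists_norm_lift F y
  rw [hy, ← map_mul, show baseU (normU' (K := K) (x * x)) = ∏ g : F ≃ₐ[K] F, galU g (x * x) from
    Units.ext (by
      rw [baseU_val, Units.coe_prod]
      exact Algebra.norm_eq_prod_automorphisms K ((x * x : Fˣ) : F))] at hy'
  set H := (normU' (K := F) (L := N)).range
  letI : CommGroup (Fˣ ⧸ H) := QuotientGroup.Quotient.commGroup H
  set q : Fˣ ⧸ H := QuotientGroup.mk (x * x)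
  have hq2 : q * q = 1 := by
    rw [← QuotientGroup.mk_mul, QuotientGroup.eq_one_iff]
    refine ⟨baseU x, Units.ext ?_⟩
    show Algebra.norm F (algebraMap F N (x : F)) = _
    rw [Algebra.norm_algebraMap, ← IsGalois.card_aut_eq_finrank, card_fixed]
    simp only [Units.val_mul]
    ring
  have hg : ∀ g : F ≃ₐ[K] F, (QuotientGroup.mk (galU g (x * x)) : Fˣ ⧸ H) = q := fun g => by
    have hl : IsLocNorm N (galU g (x * x)) := by rw [map_mul]; exact hsq _
    rcases hor _ hl with hy1 | ⟨y1, hy1⟩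
    · exact absurd (exists_norm_galU F g hy1) hnx
    · have h1 : (QuotientGroup.mk (galU g (x * x)) : Fˣ ⧸ H) * q = 1 := by
        rw [← QuotientGroup.mk_mul, QuotientGroup.eq_one_iff]
        exact ⟨y1, hy1⟩
      rw [eq_inv_of_mul_eq_one_left h1]
      exact inv_eq_of_mul_eq_one_right hq2
  have hodd : Odd (Nat.card (F ≃ₐ[K] F)) := by
    rw [IsGalois.card_aut_eq_finrank, finrank_fixedField, Nat.odd_iff]
    exact Nat.two_dvd_ne_zero.1 P.not_dvd_index
  have h1 : q ^ Nat.card (F ≃ₐ[K] F) = 1 := by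
    rw [Nat.card_eq_fintype_card, ← Finset.card_univ, ← Finset.prod_const]
    calc ∏ _g : F ≃ₐ[K] F, q
        = ∏ g : F ≃ₐ[K] F, (QuotientGroup.mk (galU g (x * x)) : Fˣ ⧸ H) :=
          Finset.prod_congr rfl fun g _ => (hg g).symm
      _ = QuotientGroup.mk (∏ g : F ≃ₐ[K] F, galU g (x * x)) :=
          (map_prod (QuotientGroup.mk' H) _ _).symm
      _ = 1 := (QuotientGroup.eq_one_iff _).2 ⟨y', hy'⟩
  rw [pow_card_of_odd hq2 hodd, QuotientGroup.eq_one_iff] at h1
  exact hnx h1

end FA.SylowNorm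

end
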